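/-
S16, package U-W2 = U2 (W) of the UPPER skeleton (helper20): the translates of a weight-2 form on
`Γ₀(p)`, in the vocabulary of the S20 coset toolkit (`Γ0`, `X`, `cosetFun`).

Exactly the four U2 statements of `origin/helper63:Fermat/Agent/S16/UpperSkeleton.lean`:
`coset_cases`, `slash_S_eq`, `heckeU_heckeU`, `cosetFun_S_T_pow`
(plus `qExpansion_heckeU_coeff`, `qExpansion_coeff_mul_mul`, `cosetFun_cases`).
-/
import Fermat.Agent.S20.Defs
import Fermat.Agent.S16.H20.AtkinLehner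

set_option autoImplicit false

noncomputable section

open UpperHalfPlane ModularForm CongruenceSubgroup Matrix.SpecialLinearGroup
open scoped MatrixGroups ModularForm Manifold

namespace Fermat.Agent.S16.H20

open Fermat.Agent.S20 Fermat.Agent.S28.H22 Fermat.Agent.S22

theorem sigma_eq_S_mul_T_pow (j : ℕ) : sigma (j : ℤ) = ModularGroup.S * ModularGroup.T ^ j := by
  have h : ((ModularGroup.T ^ j : SL(2, ℤ)) : Matrix (Fin 2) (Fin 2) ℤ) = !![1, (j : ℤ); 0, 1] := by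
    have := ModularGroup.coe_T_zpow (j : ℤ)
    rwa [zpow_natCast] at this
  ext a b
  rw [Matrix.SpecialLinearGroup.coe_mul, ModularGroup.coe_S, h]
  fin_cases a <;> fin_cases b <;> simp [sigma, Matrix.mul_apply, Fin.sum_univ_two]

theorem SL_slash_eq_mapGL {k : ℤ} (f : ℍ → ℂ) (γ : SL(2, ℤ)) : f ∣[k] γ = f ∣[k] mapGL ℝ γ := rfl

/-- U2: the cosets of `Γ₀(p)` in `SL(2, ℤ)` are `1` and `(S T^j)⁻¹`, `j < p`. -/
theorem coset_cases (p : ℕ) [hpp : Fact p.Prime] (c : X p) :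
    c = QuotientGroup.mk 1 ∨
      ∃ j : ℕ, j < p ∧ c = QuotientGroup.mk ((ModularGroup.S * ModularGroup.T ^ j)⁻¹) := by
  induction c using QuotientGroup.induction_on with
  | H g =>
    by_cases hg : g ∈ Gamma0 p
    · left
      rw [QuotientGroup.eq]
      simpa using inv_mem hg
    · right
      rw [mem_Gamma0_iff_dvd] at hg
      have hc : ((g 1 0 : ℤ) : ZMod p) ≠ 0 := by
        rwa [Ne, ZMod.intCast_zmod_eq_zero_iff_dvd]
      have hpos : NeZero p := ⟨hpp.out.ne_zero⟩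
      set b : ZMod p := -((g 0 0 : ℤ) : ZMod p) * ((g 1 0 : ℤ) : ZMod p)⁻¹ with hb
      refine ⟨b.val, ZMod.val_lt b, ?_⟩
      rw [QuotientGroup.eq, ← sigma_eq_S_mul_T_pow, ← mul_inv_rev]
      apply inv_mem
      rw [mem_Gamma0_iff_dvd, ← ZMod.intCast_zmod_eq_zero_iff_dvd]
      have h10 : (sigma ((b.val : ℕ) : ℤ) * g) 1 0 = g 0 0 + (b.val : ℤ) * g 1 0 := by
        rw [Matrix.SpecialLinearGroup.coe_mul]
        simp [sigma, Matrix.mul_apply, Fin.sum_univ_two]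
      rw [h10]
      push_cast
      rw [ZMod.natCast_zmod_val, hb, mul_assoc, inv_mul_cancel₀ hc, mul_one, add_neg_cancel]

/-- U2: the translate of `G` by `S T^j` is `-(U_p G) ∣ [[1, j], [0, p]]`. -/
theorem cosetFun_S_T_pow (p : ℕ) [Fact p.Prime] (G : ModularForm (Γ0 p) 2) (j : ℕ) :
    cosetFun G (QuotientGroup.mk ((ModularGroup.S * ModularGroup.T ^ j)⁻¹) : X p) =
      -((heckeU 2 p G) ∣[(2 : ℤ)] heckeMatrix p j) := by
  rw [cosetFun_mk, inv_inv, ← sigma_eq_S_mul_T_pow, SL_slash_eq_mapGL]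
  exact slash_sigma_eq G j

/-- U2: `G ∣[2] S = -(U_p G) ∣[2] [[1, 0], [0, p]]`. -/
theorem slash_S_eq (p : ℕ) [Fact p.Prime] (G : ModularForm (Γ0 p) 2) :
    (G : ℍ → ℂ) ∣[(2 : ℤ)] ModularGroup.S = -((heckeU 2 p G) ∣[(2 : ℤ)] heckeMatrix p 0) := by
  have h := cosetFun_S_T_pow p G 0
  rwa [cosetFun_mk, inv_inv, pow_zero, mul_one] at h

/-- U2: `U_p ∘ U_p = id` on `M_2(Γ₀(p))`. -/
theorem heckeU_heckeU (p : ℕ) [Fact p.Prime] (G : ModularForm (Γ0 p) 2) :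
    heckeU 2 p (heckeU 2 p G) = G :=
  heckeU_heckeU_eq G

/-- Every coset translate of a weight-2 form `G` on `Γ₀(p)` is `G` or `-(U_p G) ∣ [[1,j],[0,p]]`. -/
theorem cosetFun_cases (p : ℕ) [Fact p.Prime] (G : ModularForm (Γ0 p) 2) (c : X p) :
    cosetFun G c = G ∨
      ∃ j : ℕ, j < p ∧ cosetFun G c = -((heckeU 2 p G) ∣[(2 : ℤ)] heckeMatrix p j) := by
  rcases coset_cases p c with rfl | ⟨j, hj, rfl⟩
  · exact Or.inl (cosetFun_one G)
  · exact Or.inr ⟨j, hj, cosetFun_S_T_pow p G j⟩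

/-- `a_n(U_p G) = a_{n p}(G)` for a form on `Γ₀(p)` (any weight). -/
theorem qExpansion_heckeU_coeff (p : ℕ) (hp : p ≠ 0) {k : ℤ} (G : ModularForm (Γ0 p) k) (n : ℕ) :
    (qExpansion 1 (heckeU k p G)).coeff n = (qExpansion 1 G).coeff (n * p) :=
  qCoeff_heckeU_of_isNice k hp (isNice_coe 1 G) n

/-- `a_{n p²}(G) = a_n(G)` for `G ∈ M_2(Γ₀(p))`. -/
theorem qExpansion_coeff_mul_mul (p : ℕ) [Fact p.Prime] (G : ModularForm (Γ0 p) 2) (n : ℕ) :
    (qExpansion 1 G).coeff (n * p * p) = (qExpansion 1 G).coeff n :=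
  qCoeff_mul_mul_eq G n

end Fermat.Agent.S16.H20
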