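/-
S16, package U1-CONJ (helper20), part 1: the weight-2 Atkin–Lehner relation on `Γ₀(p)`.

For `G : ModularForm Γ₀(p) 2` (p prime) the trace of `G ∣ W_p` to level one is a level-one form of
weight 2, hence zero.  Consequences (all as identities of functions on `ℍ`):

* `slash_atkinW_eq`      : `G ∣[2] W_p = - U_p G`                      (`W_p = [[0,-1],[p,0]]`)
* `slash_sigma_eq`       : `G ∣[2] (S T^b) = - (U_p G) ∣[2] [[1,b],[0,p]]`
* `heckeU_heckeU_eq`     : `U_p (U_p G) = G`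
* `qCoeff_heckeU_eq`, `qCoeff_mul_mul_eq` : the same on `q`-coefficients.
-/
import Mathlib
import Fermat.Prelude.Def_ModularForm_HeckeOperator
import Fermat.Prelude.Def_FLTPrelim_Modularity
import Fermat.Prelude.Thm_UpperHalfPlane_qCoeff_heckeU
import Fermat.Prelude.Thm_ModularForm_periodic_heckeU_comp_ofComplex
import Fermat.Prelude.Thm_ModularForm_mdifferentiable_heckeU
import Fermat.Prelude.Thm_ModularForm_isBoundedAtImInfty_heckeU
import Fermat.Agent.S22.QAlg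
import Fermat.Agent.S28.H22.SlashQExp
import Fermat.Agent.S28.H22.Cosets

set_option autoImplicit false

noncomputable section

open UpperHalfPlane ModularForm CongruenceSubgroup Matrix.SpecialLinearGroup
open scoped MatrixGroups ModularForm Manifold Pointwise

namespace Fermat.Agent.S16.H20

open Fermat.Agent.S28.H22 Fermat.Agent.S22

/-- `Γ₀(p)` as a subgroup of `GL(2, ℝ)`. -/
local notation "𝒢(" p ")" => (Subgroup.map (mapGL ℝ) (Gamma0 p))

/-- The Atkin–Lehner matrix `W_p = S * diag(p, 1) = [[0, -1], [p, 0]]`. -/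
def atkinW (p : ℕ) : GL (Fin 2) ℝ := mapGL ℝ ModularGroup.S * heckeDiagMatrix p

/-- The scalar matrix `p • 1`. -/
def scalarGL (p : ℕ) (hp : p ≠ 0) : GL (Fin 2) ℝ :=
  upperTriangularGL (p : ℝ) ((0 : ℤ) : ℝ) (p : ℝ)
    (upperTriangular_ne_zero (Nat.pos_of_ne_zero hp) (Nat.pos_of_ne_zero hp))

/-- Slashing by a positive scalar matrix is trivial in weight 2. -/
theorem slash_scalarGL (p : ℕ) (hp : p ≠ 0) (F : ℍ → ℂ) : F ∣[(2 : ℤ)] scalarGL p hp = F := by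
  have hp0 : 0 < p := Nat.pos_of_ne_zero hp
  have hp' : (p : ℂ) ≠ 0 := by exact_mod_cast hp
  funext τ
  unfold scalarGL
  rw [slash_upperTriangularGL_apply 2 hp0 hp0]
  have hτ : upperTriangularGL (p : ℝ) ((0 : ℤ) : ℝ) (p : ℝ)
      (upperTriangular_ne_zero hp0 hp0) • τ = τ := by
    apply UpperHalfPlane.ext
    rw [coe_upperTriangularGL_smul hp0 hp0]
    push_cast
    field_simp
    ring
  rw [hτ]
  have : ((p : ℂ) * p) ^ ((2 : ℤ) - 1) * (p : ℂ) ^ (-(2 : ℤ)) = 1 := by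
    rw [show (2 : ℤ) - 1 = 1 by norm_num, zpow_one, zpow_neg]
    field_simp
  rw [this, one_mul]

theorem S_mul_S_mem_Gamma0 (p : ℕ) : ModularGroup.S * ModularGroup.S ∈ Gamma0 p := by
  rw [mem_Gamma0_iff_dvd]
  have h : (ModularGroup.S * ModularGroup.S : SL(2, ℤ)) 1 0 = 0 := by
    rw [Matrix.SpecialLinearGroup.coe_mul, ModularGroup.coe_S]
    simp [Matrix.mul_apply, Fin.sum_univ_two]
  rw [h]
  exact dvd_zero _

/-- Conjugation by `W_p` preserves `Γ₀(p)`:  `W_p γ = γ' W_p`. -/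
theorem exists_atkinW_mul (p : ℕ) (hp : p ≠ 0) (g : SL(2, ℤ)) (hg : g ∈ Gamma0 p) :
    ∃ g' ∈ Gamma0 p, atkinW p * mapGL ℝ g = mapGL ℝ g' * atkinW p := by
  obtain ⟨c', hc'⟩ := (mem_Gamma0_iff_dvd p g).mp hg
  have hdet : g 0 0 * g 1 1 - g 0 1 * g 1 0 = 1 := by
    have := g.det_coe
    rwa [Matrix.det_fin_two] at this
  have hdet' : (!![g 1 1, -c'; -(p : ℤ) * g 0 1, g 0 0] : Matrix (Fin 2) (Fin 2) ℤ).det = 1 := by
    rw [Matrix.det_fin_two_of]
    rw [hc'] at hdet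
    linarith
  let g' : SL(2, ℤ) := ⟨!![g 1 1, -c'; -(p : ℤ) * g 0 1, g 0 0], hdet'⟩
  have hg'c : (g' : Matrix (Fin 2) (Fin 2) ℤ) = !![g 1 1, -c'; -(p : ℤ) * g 0 1, g 0 0] := rfl
  refine ⟨g', ?_, ?_⟩
  · rw [mem_Gamma0_iff_dvd, hg'c]
    simp
  · have hc'' : ((g 1 0 : ℤ) : ℝ) = (p : ℝ) * (c' : ℝ) := by exact_mod_cast hc'
    ext i j
    fin_cases i <;> fin_cases j <;>
      simp [atkinW, ModularGroup.coe_S, hp, Matrix.mul_apply, Fin.sum_univ_two, hc'', hg'c] <;>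
      ring

theorem conj_atkinW_le (p : ℕ) (hp : p ≠ 0) :
    ConjAct.toConjAct (atkinW p) • 𝒢(p) ≤ 𝒢(p) := by
  intro x hx
  obtain ⟨y, hy, rfl⟩ := Subgroup.mem_smul_pointwise_iff_exists _ _ _ |>.mp hx
  obtain ⟨g, hg, rfl⟩ := hy
  obtain ⟨g', hg', h⟩ := exists_atkinW_mul p hp g hg
  refine ⟨g', hg', ?_⟩
  rw [ConjAct.toConjAct_smul, h, mul_inv_cancel_right]

variable {p : ℕ}

/-- The Atkin–Lehner translate `G ∣[k] W_p` as a modular form on `Γ₀(p)`. -/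
def atkinForm (hp : p ≠ 0) {k : ℤ} (G : ModularForm 𝒢(p) k) : ModularForm 𝒢(p) k where
  toFun := (G : ℍ → ℂ) ∣[k] atkinW p
  slash_action_eq' γ hγ := by
    obtain ⟨g, hg, rfl⟩ := hγ
    obtain ⟨g', hg', h⟩ := exists_atkinW_mul p hp g hg
    rw [← SlashAction.slash_mul, h, SlashAction.slash_mul]
    congr 1
    exact SlashInvariantFormClass.slash_action_eq G _ ⟨g', hg', rfl⟩
  holo' := (ModularFormClass.holo G).slash k (atkinW p)
  bdd_at_cusps' {c} hc := by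
    rw [← OnePoint.IsBoundedAt.smul_iff]
    exact ModularFormClass.bdd_at_cusps G ((hc.smul (atkinW p)).mono (conj_atkinW_le p hp))

@[simp] theorem coe_atkinForm (hp : p ≠ 0) {k : ℤ} (G : ModularForm 𝒢(p) k) :
    ⇑(atkinForm hp G) = (G : ℍ → ℂ) ∣[k] atkinW p := rfl

theorem heckeU_neg' (k : ℤ) (p : ℕ) (f : ℍ → ℂ) : heckeU k p (-f) = -heckeU k p f := by
  simp [heckeU_def, SlashAction.neg_slash, Finset.sum_neg_distrib]

theorem slash_S_mul_S {k : ℤ} (G : ModularForm 𝒢(p) k) :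
    (G : ℍ → ℂ) ∣[k] (mapGL ℝ ModularGroup.S * mapGL ℝ ModularGroup.S) = G := by
  rw [← map_mul]
  exact SlashInvariantFormClass.slash_action_eq G _ ⟨_, S_mul_S_mem_Gamma0 p, rfl⟩

/-- `(G ∣ W_p) ∣ (S T^b) = G ∣ [[1,b],[0,p]]`. -/
theorem slash_atkinW_slash_sigma (hp : p ≠ 0) {k : ℤ} (G : ModularForm 𝒢(p) k) (b : ℕ) :
    ((G : ℍ → ℂ) ∣[k] atkinW p) ∣[k] mapGL ℝ (sigma b) = (G : ℍ → ℂ) ∣[k] heckeMatrix p b := by
  rw [← SlashAction.slash_mul, atkinW, mul_assoc, heckeDiagMatrix_mul_sigma hp b, ← mul_assoc,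
    SlashAction.slash_mul, slash_S_mul_S]

/-- `W_p * [[1,b],[0,p]] = p • (S T^b)`. -/
theorem atkinW_mul_heckeMatrix (hp : p ≠ 0) (b : ℕ) :
    atkinW p * heckeMatrix p b = scalarGL p hp * mapGL ℝ (sigma b) := by
  ext i j
  fin_cases i <;> fin_cases j <;>
    simp [atkinW, scalarGL, ModularGroup.coe_S, hp, Matrix.mul_apply, Fin.sum_univ_two]

/-- `W_p * W_p = p • (S * S)`. -/
theorem atkinW_mul_atkinW (hp : p ≠ 0) :
    atkinW p * atkinW p = scalarGL p hp * (mapGL ℝ ModularGroup.S * mapGL ℝ ModularGroup.S) := by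
  ext i j
  fin_cases i <;> fin_cases j <;>
    simp [atkinW, scalarGL, ModularGroup.coe_S, hp, Matrix.mul_apply, Fin.sum_univ_two]

theorem one_mem_strictPeriods (p : ℕ) : (1 : ℝ) ∈ 𝒢(p).strictPeriods := by
  simp [strictPeriods_Gamma0]

/-- A modular form on `Γ₀(p)` is nice at every period. -/
theorem isNice_coe (N : ℕ) {k : ℤ} (G : ModularForm 𝒢(p) k) : IsNice N (G : ℍ → ℂ) := by
  have hΓ := one_mem_strictPeriods p
  have : Fact (IsCusp OnePoint.infty 𝒢(p)) := ⟨Subgroup.isCusp_of_mem_strictPeriods one_pos hΓ⟩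
  exact IsNice.of_one N (SlashInvariantFormClass.periodic_comp_ofComplex G hΓ)
    (ModularFormClass.holo G) (ModularFormClass.bdd_at_infty G)

theorem periodic_one_of_isNice {F : ℍ → ℂ} (hF : IsNice 1 F) :
    Function.Periodic (F ∘ ofComplex) (1 : ℂ) := by
  simpa using hF.per

/-- `U_p` of a nice function of period 1 is nice at every period. -/
theorem isNice_heckeU_of_isNice (N : ℕ) (k : ℤ) (p : ℕ) {F : ℍ → ℂ} (hF : IsNice 1 F) :
    IsNice N (heckeU k p F) := by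
  refine IsNice.of_one N ?_ (mdifferentiable_heckeU hF.holo k p)
    (isBoundedAtImInfty_heckeU hF.bdd k p)
  have := periodic_heckeU_comp_ofComplex (periodic_one_of_isNice hF) k p
  simpa using this

theorem isNice_heckeU (N : ℕ) {k : ℤ} (G : ModularForm 𝒢(p) k) : IsNice N (heckeU k p G) :=
  isNice_heckeU_of_isNice N k p (isNice_coe 1 G)

/-- `a_n(U_p F) = a_{np}(F)`. -/
theorem qCoeff_heckeU_of_isNice (k : ℤ) (hp : p ≠ 0) {F : ℍ → ℂ} (hF : IsNice 1 F) (n : ℕ) :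
    (qExpansion 1 (heckeU k p F)).coeff n = (qExpansion 1 F).coeff (n * p) :=
  UpperHalfPlane.qCoeff_heckeU (periodic_one_of_isNice hF) hF.holo hF.bdd k hp n

section weightTwo

variable [hpp : Fact p.Prime]

/-- **Atkin–Lehner in weight 2**: `G ∣[2] W_p = - U_p G`, because the trace of `G ∣ W_p` to level
one is a level-one form of weight 2. -/
theorem slash_atkinW_eq (G : ModularForm 𝒢(p) 2) :
    (G : ℍ → ℂ) ∣[(2 : ℤ)] atkinW p = -heckeU 2 p G := by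
  have hp : p ≠ 0 := hpp.out.ne_zero
  have h0 : ModularForm.trace 𝒮ℒ (atkinForm hp G) = 0 := by
    have : Subsingleton (ModularForm 𝒮ℒ 2) := rank_zero_iff.mp levelOne_weight_two_rank_zero
    exact Subsingleton.elim _ _
  have h1 : (⇑(ModularForm.trace 𝒮ℒ (atkinForm hp G)) : ℍ → ℂ) = 0 := by rw [h0]; rfl
  rw [ModularForm.coe_trace] at h1
  let _ : Fintype (𝒮ℒ ⧸ Subgroup.subgroupOf 𝒢(p) 𝒮ℒ) := Fintype.ofFinite _
  rw [sum_quotient_eq p] at h1
  simp only [quotientFunc_cosetOf, coe_atkinForm, map_one, SlashAction.slash_one] at h1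
  have h2 : ∑ b : Fin p, ((G : ℍ → ℂ) ∣[(2 : ℤ)] atkinW p) ∣[(2 : ℤ)] mapGL ℝ (sigma ((b : ℕ) : ℤ))
      = heckeU 2 p G := by
    rw [heckeU_def, ← Fin.sum_univ_eq_sum_range (fun j => (G : ℍ → ℂ) ∣[(2 : ℤ)] heckeMatrix p j)]
    exact Finset.sum_congr rfl fun b _ => slash_atkinW_slash_sigma hp G b
  rw [h2] at h1
  exact eq_neg_of_add_eq_zero_left h1

/-- The translate of `G` by `S T^b` is `-(U_p G) ∣ [[1,b],[0,p]]`. -/
theorem slash_sigma_eq (G : ModularForm 𝒢(p) 2) (b : ℕ) :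
    (G : ℍ → ℂ) ∣[(2 : ℤ)] mapGL ℝ (sigma b) = -((heckeU 2 p G) ∣[(2 : ℤ)] heckeMatrix p b) := by
  have hp : p ≠ 0 := hpp.out.ne_zero
  rw [← SlashAction.neg_slash, ← slash_atkinW_eq G, ← SlashAction.slash_mul,
    atkinW_mul_heckeMatrix hp, SlashAction.slash_mul, slash_scalarGL]

/-- `U_p ∘ U_p = id` on `M_2(Γ₀(p))`. -/
theorem heckeU_heckeU_eq (G : ModularForm 𝒢(p) 2) : heckeU 2 p (heckeU 2 p G) = G := by
  have hp : p ≠ 0 := hpp.out.ne_zero
  have h1 := slash_atkinW_eq (atkinForm hp G)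
  rw [coe_atkinForm, slash_atkinW_eq G, heckeU_neg', neg_neg, ← slash_atkinW_eq G,
    ← SlashAction.slash_mul, atkinW_mul_atkinW hp, SlashAction.slash_mul, slash_scalarGL,
    slash_S_mul_S] at h1
  exact h1.symm

/-- `a_{n p^2}(G) = a_n(G)` for `G ∈ M_2(Γ₀(p))`. -/
theorem qCoeff_mul_mul_eq (G : ModularForm 𝒢(p) 2) (n : ℕ) :
    (qExpansion 1 G).coeff (n * p * p) = (qExpansion 1 G).coeff n := by
  have hp : p ≠ 0 := hpp.out.ne_zero
  rw [← qCoeff_heckeU_of_isNice 2 hp (isNice_coe 1 G), ← qCoeff_heckeU_of_isNice 2 hp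
    (isNice_heckeU 1 G), heckeU_heckeU_eq]

end weightTwo

end Fermat.Agent.S16.H20
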