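/-
S16, package U6 (trace relation (I)) (helper20).

For `g₁, g₂ ∈ M_2(Γ₀(p))` the trace of `g₁ g₂` to level one is a level-one form of weight 4 whose
`q`-expansion is  `g₁ g₂ + p⁻¹ U_p((U_p g₁)(U_p g₂))`  (`trace_mul_coeff`).
-/
import Fermat.Prelude.Thm_UpperHalfPlane_qExpansion_coeff_nat_mul
import Fermat.Agent.S28.H22.Translates
import Fermat.Agent.S16.H20.W2

set_option autoImplicit false

noncomputable section

open UpperHalfPlane ModularForm CongruenceSubgroup Matrix.SpecialLinearGroup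
open scoped MatrixGroups ModularForm Manifold

namespace Fermat.Agent.S16.H20

open Fermat.Agent.S20 Fermat.Agent.S28.H22 Fermat.Agent.S22

/-- A cusp form, as a modular form. -/
def ofCusp {Γ : Subgroup (GL (Fin 2) ℝ)} {k : ℤ} (f : CuspForm Γ k) : ModularForm Γ k where
  toSlashInvariantForm := f.toSlashInvariantForm
  holo' := f.holo'
  bdd_at_cusps' hc := ModularFormClass.bdd_at_cusps f hc

@[simp] theorem coe_ofCusp {Γ : Subgroup (GL (Fin 2) ℝ)} {k : ℤ} (f : CuspForm Γ k) :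
    (ofCusp f : ℍ → ℂ) = f := rfl

/-- Period-`N` coefficients of a `1`-periodic nice function. -/
theorem coeff_qExpansion_nat' (N : ℕ) [NeZero N] {F : ℍ → ℂ} (hF : IsNice 1 F) (n : ℕ) :
    (qExpansion N F).coeff n = if N ∣ n then (qExpansion 1 F).coeff (n / N) else 0 := by
  have h := UpperHalfPlane.qExpansion_coeff_nat_mul one_pos (periodic_one_of_isNice hF) hF.holo
    hF.bdd (NeZero.pos N) n
  rwa [mul_one] at h

theorem coeff_qExpansion_nat_mul (N : ℕ) [NeZero N] {F : ℍ → ℂ} (hF : IsNice 1 F) (n : ℕ) :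
    (qExpansion N F).coeff (N * n) = (qExpansion 1 F).coeff n := by
  rw [coeff_qExpansion_nat' N hF, if_pos (dvd_mul_right N n),
    Nat.mul_div_cancel_left n (NeZero.pos N)]

/-- A level-one form is nice at every period. -/
theorem isNice_levelOne (N : ℕ) {k : ℤ} (h : ModularForm 𝒮ℒ k) : IsNice N (h : ℍ → ℂ) :=
  IsNice.of_one N (SlashInvariantFormClass.periodic_comp_ofComplex h one_mem_strictPeriods_SL)
    (ModularFormClass.holo h) (ModularFormClass.bdd_at_infty h)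

theorem zetaBD_pow_mul (b : ℕ) {p : ℕ} (hp : p ≠ 0) (n : ℕ) : zetaBD (b : ℤ) p ^ (p * n) = 1 := by
  have hp' : (p : ℂ) ≠ 0 := by exact_mod_cast hp
  unfold zetaBD
  rw [← Complex.exp_nat_mul]
  have : ((p * n : ℕ) : ℂ) * (2 * Real.pi * Complex.I * ((b : ℤ) : ℂ) / p) =
      ((b * n : ℕ) : ℤ) * (2 * Real.pi * Complex.I) := by
    push_cast
    field_simp
  rw [this]
  exact Complex.exp_int_mul_two_pi_mul_I _

/-- Sum of `p⁻¹ B₁ ζ^i`-type products: the `N`-th coefficient of the product of the two twisted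
series is `p⁻² ζ^N` times the `N`-th coefficient of `B₁ B₂`. -/
theorem coeff_twist_mul (c ζ : ℂ) (P₁ P₂ B₁ B₂ : PowerSeries ℂ)
    (h₁ : ∀ j, P₁.coeff j = c * B₁.coeff j * ζ ^ j) (h₂ : ∀ j, P₂.coeff j = c * B₂.coeff j * ζ ^ j)
    (N : ℕ) : (P₁ * P₂).coeff N = c ^ 2 * ζ ^ N * (B₁ * B₂).coeff N := by
  rw [PowerSeries.coeff_mul, PowerSeries.coeff_mul, Finset.mul_sum]
  refine Finset.sum_congr rfl fun x hx => ?_
  have hx' : x.1 + x.2 = N := Finset.HasAntidiagonal.mem_antidiagonal.mp hx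
  rw [h₁, h₂, ← hx', pow_add]
  ring

theorem analyticAt_one_of_isNice {F : ℍ → ℂ} (hF : IsNice 1 F) :
    AnalyticAt ℂ (cuspFunction 1 F) 0 := by
  simpa using hF.analyticAt

theorem isNice_qExpansion_finset_sum (N : ℕ) [NeZero N] {ι : Type*} (s : Finset ι)
    (G : ι → ℍ → ℂ) (hG : ∀ i ∈ s, IsNice N (G i)) :
    IsNice N (∑ i ∈ s, G i) ∧ qExpansion N (∑ i ∈ s, G i) = ∑ i ∈ s, qExpansion N (G i) := by
  classical
  induction s using Finset.induction_on with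
  | empty => exact ⟨by simpa using (IsNice.zero : IsNice N 0), by simp [qExpansion_zero]⟩
  | insert a s ha ih =>
    obtain ⟨h1, h2⟩ := ih fun i hi => hG i (Finset.mem_insert_of_mem hi)
    have ha' := hG a (Finset.mem_insert_self a s)
    rw [Finset.sum_insert ha, Finset.sum_insert ha]
    exact ⟨ha'.add h1, by rw [qExpansion_add ha'.analyticAt h1.analyticAt, h2]⟩

section trace

variable (p : ℕ) [hpp : Fact p.Prime]

/-- **Trace of a product of two weight-2 forms.**  The trace of `g₁ g₂` from `Γ₀(p)` to level one is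
a level-one form of weight 4 with `q`-expansion `g₁ g₂ + p⁻¹ U_p((U_p g₁)(U_p g₂))`. -/
theorem trace_mul_coeff (g₁ g₂ : ModularForm (Γ0 p) 2) :
    ∃ h : ModularForm 𝒮ℒ 4, ∀ n : ℕ, (qExpansion 1 h).coeff n =
      (qExpansion 1 g₁ * qExpansion 1 g₂).coeff n +
        (p : ℂ)⁻¹ *
          (qExpansion 1 (heckeU 2 p g₁) * qExpansion 1 (heckeU 2 p g₂)).coeff (p * n) := by
  have hp : p ≠ 0 := hpp.out.ne_zero
  have hp' : (p : ℂ) ≠ 0 := by exact_mod_cast hp
  have : NeZero p := ⟨hp⟩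
  let K : ModularForm (Γ0 p) (2 + 2) := g₁.mul g₂
  have hK : (K : ℍ → ℂ) = (g₁ : ℍ → ℂ) * g₂ := rfl
  let h0 : ModularForm 𝒮ℒ (2 + 2) := ModularForm.trace 𝒮ℒ K
  refine ⟨ModularForm.mcast (by norm_num) h0, fun n => ?_⟩
  have hmc : ((ModularForm.mcast (by norm_num) h0 : ModularForm 𝒮ℒ 4) : ℍ → ℂ) = h0 := rfl
  set X₁ : ℕ → ℍ → ℂ := fun b => (heckeU 2 p g₁) ∣[(2 : ℤ)] heckeMatrix p b with hX₁
  set X₂ : ℕ → ℍ → ℂ := fun b => (heckeU 2 p g₂) ∣[(2 : ℤ)] heckeMatrix p b with hX₂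
  -- the trace as a function
  have hcoe : (h0 : ℍ → ℂ) = (g₁ : ℍ → ℂ) * g₂ + ∑ b : Fin p, X₁ b * X₂ b := by
    change ⇑(ModularForm.trace 𝒮ℒ K) = _
    rw [ModularForm.coe_trace]
    let _ : Fintype (𝒮ℒ ⧸ Subgroup.subgroupOf (Γ0 p) 𝒮ℒ) := Fintype.ofFinite _
    rw [sum_quotient_eq p]
    simp only [quotientFunc_cosetOf, map_one, SlashAction.slash_one]
    rw [hK]
    congr 1
    refine Finset.sum_congr rfl fun b _ => ?_
    have e₁ : (g₁ : ℍ → ℂ) ∣[(2 : ℤ)] sigma ((b : ℕ) : ℤ) = -X₁ b := slash_sigma_eq g₁ b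
    have e₂ : (g₂ : ℍ → ℂ) ∣[(2 : ℤ)] sigma ((b : ℕ) : ℤ) = -X₂ b := slash_sigma_eq g₂ b
    rw [← SL_slash_eq_mapGL, ModularForm.mul_slash_SL2, e₁, e₂, neg_mul_neg]
  -- niceness
  have hN0 : IsNice 1 ((g₁ : ℍ → ℂ) * g₂) := (isNice_coe 1 g₁).mul (isNice_coe 1 g₂)
  have hN0p : IsNice p ((g₁ : ℍ → ℂ) * g₂) := (isNice_coe p g₁).mul (isNice_coe p g₂)
  have hX₁n : ∀ b : ℕ, IsNice p (X₁ b) := fun b =>
    isNice_slash_heckeMatrix (isNice_heckeU 1 g₁) 2 hp b
  have hX₂n : ∀ b : ℕ, IsNice p (X₂ b) := fun b =>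
    isNice_slash_heckeMatrix (isNice_heckeU 1 g₂) 2 hp b
  obtain ⟨hSn, hSq⟩ := isNice_qExpansion_finset_sum p (Finset.univ : Finset (Fin p))
    (fun b => X₁ b * X₂ b) (fun b _ => (hX₁n b).mul (hX₂n b))
  -- coefficients of the twisted products
  have hb : ∀ b : Fin p, (qExpansion p (X₁ b * X₂ b)).coeff (p * n) =
      ((p : ℂ)⁻¹) ^ 2 *
        (qExpansion 1 (heckeU 2 p g₁) * qExpansion 1 (heckeU 2 p g₂)).coeff (p * n) := by
    intro b
    rw [qExpansion_mul (hX₁n b).analyticAt (hX₂n b).analyticAt,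
      coeff_twist_mul ((p : ℂ)⁻¹) (zetaBD ((b : ℕ) : ℤ) p) _ _ (qExpansion 1 (heckeU 2 p g₁))
        (qExpansion 1 (heckeU 2 p g₂))
        (fun j => qExpansion_slash_heckeMatrix_coeff (isNice_heckeU 1 g₁) 2 hp b j)
        (fun j => qExpansion_slash_heckeMatrix_coeff (isNice_heckeU 1 g₂) 2 hp b j),
      zetaBD_pow_mul b hp n, mul_one]
  rw [hmc, ← coeff_qExpansion_nat_mul p (isNice_levelOne 1 h0) n, hcoe,
    qExpansion_add hN0p.analyticAt hSn.analyticAt, hSq, map_add, map_sum,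
    coeff_qExpansion_nat_mul p hN0 n, qExpansion_mul (analyticAt_one_of_isNice (isNice_coe 1 g₁))
      (analyticAt_one_of_isNice (isNice_coe 1 g₂))]
  congr 1
  rw [Finset.sum_congr rfl fun b _ => hb b, Finset.sum_const, Finset.card_univ, Fintype.card_fin,
    nsmul_eq_mul]
  field_simp

/-- A level-one form of weight 4 is its constant term times `E₄`. -/
theorem levelOne_four_coeff (h : ModularForm 𝒮ℒ 4) (n : ℕ) :
    (qExpansion 1 h).coeff n = (qExpansion 1 h).coeff 0 * (qExpansion 1 E₄).coeff n := by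
  set c : ℂ := (qExpansion 1 h).coeff 0 with hc
  have hE0 : (qExpansion 1 E₄).coeff 0 = 1 := EisensteinSeries.E_qExpansion_coeff_zero _ ⟨2, rfl⟩
  have hq : qExpansion 1 (h - c • E₄ : ModularForm 𝒮ℒ 4) = qExpansion 1 h - c • qExpansion 1 E₄ := by
    rw [FunLike.coe_sub, ModularForm.qExpansion_sub one_pos one_mem_strictPeriods_SL,
      FunLike.coe_smul, ModularForm.qExpansion_smul one_pos one_mem_strictPeriods_SL]
  have h0 : (h - c • E₄ : ModularForm 𝒮ℒ 4) = 0 := by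
    apply ModularForm.sturm_bound_levelOne
    have h1 : ((1 : ℕ) : ℕ∞) ≤ (qExpansion 1 (h - c • E₄ : ModularForm 𝒮ℒ 4)).order := by
      refine PowerSeries.nat_le_order _ _ fun i hi => ?_
      have hi0 : i = 0 := by omega
      rw [hi0, hq, map_sub, PowerSeries.coeff_smul, hE0, smul_eq_mul, mul_one, sub_self]
    refine lt_of_lt_of_le ?_ h1
    norm_num
  have h2 : qExpansion 1 h = c • qExpansion 1 E₄ := by
    have := hq
    rw [h0] at this
    have hz : qExpansion 1 ((0 : ModularForm 𝒮ℒ 4) : ℍ → ℂ) = 0 := by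
      rw [FunLike.coe_zero]; exact qExpansion_zero 1
    rw [hz] at this
    exact (sub_eq_zero.mp this.symm)
  rw [h2, PowerSeries.coeff_smul, smul_eq_mul]

/-- **(T0) TRACE4**: for `G₁, G₂ ∈ M_2(Γ₀(p))`,
`p·(G₁G₂)_n + ((U_p G₁)(U_p G₂))_{pn} = (p+1)·a₀(G₁)·a₀(G₂)·(E₄)_n`. -/
theorem trace4 (G₁ G₂ : ModularForm (Γ0 p) 2) (n : ℕ) :
    (p : ℂ) * (qExpansion 1 G₁ * qExpansion 1 G₂).coeff n +
        (qExpansion 1 (heckeU 2 p G₁) * qExpansion 1 (heckeU 2 p G₂)).coeff (p * n) =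
      ((p : ℂ) + 1) * (qExpansion 1 G₁).coeff 0 * (qExpansion 1 G₂).coeff 0 *
        (qExpansion 1 E₄).coeff n := by
  have hp : p ≠ 0 := hpp.out.ne_zero
  have hp' : (p : ℂ) ≠ 0 := by exact_mod_cast hp
  obtain ⟨h, hh⟩ := trace_mul_coeff p G₁ G₂
  have h1 := levelOne_four_coeff h n
  rw [hh n, hh 0] at h1
  have e1 : (qExpansion 1 (heckeU 2 p G₁)).coeff 0 = (qExpansion 1 G₁).coeff 0 := by
    rw [qExpansion_heckeU_coeff p hp G₁ 0, zero_mul]
  have e2 : (qExpansion 1 (heckeU 2 p G₂)).coeff 0 = (qExpansion 1 G₂).coeff 0 := by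
    rw [qExpansion_heckeU_coeff p hp G₂ 0, zero_mul]
  have c0 : ∀ A B : PowerSeries ℂ, (A * B).coeff 0 = A.coeff 0 * B.coeff 0 := fun A B => by
    rw [PowerSeries.coeff_mul]; simp
  rw [mul_zero, c0, c0, e1, e2] at h1
  field_simp at h1
  linear_combination h1

/-- (T0) with vanishing constant term (e.g. one of the two forms is a cusp form). -/
theorem trace4_of_coeff_zero (G₁ G₂ : ModularForm (Γ0 p) 2)
    (h0 : (qExpansion 1 G₁).coeff 0 * (qExpansion 1 G₂).coeff 0 = 0) (n : ℕ) :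
    (p : ℂ) * (qExpansion 1 G₁ * qExpansion 1 G₂).coeff n +
        (qExpansion 1 (heckeU 2 p G₁) * qExpansion 1 (heckeU 2 p G₂)).coeff (p * n) = 0 := by
  rw [trace4 p G₁ G₂ n, mul_assoc ((p : ℂ) + 1), h0, mul_zero, zero_mul]

end trace

end Fermat.Agent.S16.H20
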